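/-
Programme JAC (S25), work package A5.1 (helper98): the ABSTRACT covering theorem.

Fix a line bundle `L` of degree `g` on a curve over an algebraically closed field `K`.  For a divisor
`D : Pt →₀ ℤ` on the set `Pt` of `K`-points put `H0 D = h⁰(L(D))`, `H1 D = h¹(L(D))`.  The only facts
about curves which are used are

* `chi`      : `χ(L(D + P)) = χ(L(D)) + 1`;
* `mono0`    : `h⁰(L(D)) ≤ h⁰(L(D + P))`;
* `mono1`    : `h¹(L(D + P)) ≤ h¹(L(D))`;
* `supermod` : `h⁰(L(D+P)) + h⁰(L(D+Q)) ≤ h⁰(L(D+P+Q)) + h⁰(L(D))` for `P ≠ Q`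
               (`H⁰(L(D+P)) ∩ H⁰(L(D+Q)) = H⁰(L(D))` inside `H⁰(L(D+P+Q))`);
* `van`      : `h¹(L(D)) = 0` as soon as `deg D ≥ d₀`;
* `fin`      : if `h⁰(L(D)) > 0`, only finitely many points `P` are base points of `L(D)`
               (a nonzero section vanishes at finitely many points).

From these we derive, WITHOUT any duality theorem:

* `finite_jump` : if `h¹(L(D)) > 0` then for all but finitely many `P`, `h¹(L(D+P)) = h¹(L(D)) - 1`;
* `exists_cover` : if `χ(L(D₀)) = 1` (degree `g`), `S` is an infinite set of points and `Inf` a finite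
  set of points, there is a degree-`0` divisor `T = Σ q'ᵢ - Σ qᵢ` supported on `S` with
  `h¹(L(D₀+T)) = 0`, `h⁰(L(D₀+T)) = 1` and the unique section of `L(D₀+T)` does not vanish at any
  point of `Inf`.  (The translates of the big chart by classes of divisors supported on `S` cover
  `Pic^g`.)
-/
import Mathlib

set_option autoImplicit false

namespace Fermat.Agent.JAC.Cover.AbsCover98

open Finsupp

variable {Pt : Type*}

/-- The degree of a divisor, as an additive map. -/
noncomputable def deg : (Pt →₀ ℤ) →+ ℤ := Finsupp.liftAddHom (fun _ => AddMonoidHom.id ℤ)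

@[simp] theorem deg_single (P : Pt) (n : ℤ) : deg (single P n) = n := by
  simp [deg]

theorem deg_apply (D : Pt →₀ ℤ) : deg D = D.sum fun _ n => n := by
  simp only [deg, Finsupp.liftAddHom_apply]
  rfl

/-- The effective divisor `Σ_{P ∈ l} P` of a list of points. -/
noncomputable def dv (l : List Pt) : Pt →₀ ℤ := (l.map fun P => single P (1 : ℤ)).sum

@[simp] theorem dv_nil : dv ([] : List Pt) = 0 := rfl

@[simp] theorem dv_cons (P : Pt) (l : List Pt) : dv (P :: l) = single P 1 + dv l := by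
  simp [dv]

@[simp] theorem dv_append (l l' : List Pt) : dv (l ++ l') = dv l + dv l' := by
  simp [dv]

@[simp] theorem dv_replicate (n : ℕ) (P : Pt) : dv (List.replicate n P) = single P (n : ℤ) := by
  induction n with
  | zero => simp
  | succ n ih =>
    rw [List.replicate_succ, dv_cons, ih, ← single_add]
    congr 1
    push_cast
    ring

@[simp] theorem deg_dv (l : List Pt) : deg (dv l) = l.length := by
  induction l with
  | nil => simp
  | cons P l ih => simp [ih]; ring

theorem dv_ofFn {r : ℕ} (q : Fin r → Pt) : dv (List.ofFn q) = ∑ i, single (q i) (1 : ℤ) := by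
  simp [dv, List.sum_ofFn]

theorem support_dv_subset {S : Set Pt} (l : List Pt) (hl : ∀ x ∈ l, x ∈ S) :
    ∀ P ∈ (dv l).support, P ∈ S := by
  classical
  induction l with
  | nil => simp
  | cons Q l ih =>
    intro P hP
    rw [dv_cons] at hP
    rcases Finset.mem_union.1 (Finsupp.support_add hP) with h | h
    · have : P = Q := by
        by_contra hne
        rw [Finsupp.mem_support_iff, Finsupp.single_apply, if_neg (Ne.symm hne)] at h
        exact h rfl
      rw [this]; exact hl Q (List.mem_cons_self)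
    · exact ih (fun x hx => hl x (List.mem_cons_of_mem _ hx)) P h

/-- Abstract cohomology numbers of the twists `L(D)` of a fixed line bundle. -/
structure CohData (Pt : Type*) where
  /-- `h⁰(L(D))` -/
  H0 : (Pt →₀ ℤ) → ℕ
  /-- `h¹(L(D))` -/
  H1 : (Pt →₀ ℤ) → ℕ

/-- The curve-like axioms. -/
structure CohData.IsCurveLike (c : CohData Pt) : Prop where
  chi : ∀ D P, (c.H0 (D + single P 1) : ℤ) - c.H1 (D + single P 1) = c.H0 D - c.H1 D + 1
  mono0 : ∀ D P, c.H0 D ≤ c.H0 (D + single P 1)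
  mono1 : ∀ D P, c.H1 (D + single P 1) ≤ c.H1 D
  supermod : ∀ D P Q, P ≠ Q →
    c.H0 (D + single P 1) + c.H0 (D + single Q 1) ≤ c.H0 (D + single P 1 + single Q 1) + c.H0 D
  van : ∃ d0 : ℤ, ∀ D : Pt →₀ ℤ, d0 ≤ deg D → c.H1 D = 0
  fin : ∀ D, 0 < c.H0 D → {P | c.H0 (D - single P 1) = c.H0 D}.Finite

namespace CohData.IsCurveLike

variable {c : CohData Pt} (hc : c.IsCurveLike)

include hc

theorem H0_le_succ (D : Pt →₀ ℤ) (P : Pt) : c.H0 (D + single P 1) ≤ c.H0 D + 1 := by
  have h1 := hc.chi D P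
  have h2 := hc.mono1 D P
  omega

theorem H1_le_succ (D : Pt →₀ ℤ) (P : Pt) : c.H1 D ≤ c.H1 (D + single P 1) + 1 := by
  have h1 := hc.chi D P
  have h2 := hc.mono0 D P
  omega

theorem H0_sub_le (D : Pt →₀ ℤ) (P : Pt) : c.H0 (D - single P 1) ≤ c.H0 D := by
  have := hc.mono0 (D - single P 1) P
  rwa [sub_add_cancel] at this

theorem H1_le_sub (D : Pt →₀ ℤ) (P : Pt) : c.H1 D ≤ c.H1 (D - single P 1) := by
  have := hc.mono1 (D - single P 1) P
  rwa [sub_add_cancel] at this

theorem chi_sub (D : Pt →₀ ℤ) (P : Pt) :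
    (c.H0 (D - single P 1) : ℤ) - c.H1 (D - single P 1) = c.H0 D - c.H1 D - 1 := by
  have := hc.chi (D - single P 1) P
  rw [sub_add_cancel] at this
  omega

/-- A point `P` at which `h⁰` jumps keeps this property after adding another point. -/
theorem jump_add {D : Pt →₀ ℤ} {P Q : Pt} (hPQ : P ≠ Q)
    (hP : c.H0 (D + single P 1) = c.H0 D + 1) :
    c.H0 (D + single Q 1 + single P 1) = c.H0 (D + single Q 1) + 1 := by
  have h1 := hc.supermod D P Q hPQ
  have h2 := hc.H0_le_succ (D + single Q 1) P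
  have h3 : D + single P 1 + single Q 1 = D + single Q 1 + single P 1 := by abel
  rw [h3] at h1
  omega

/-- Adding `m` distinct jump points of `D` raises `h⁰` by `m` and leaves `h¹` unchanged. -/
theorem jump_finset [DecidableEq Pt] (D : Pt →₀ ℤ) (t : Finset Pt)
    (ht : ∀ P ∈ t, c.H0 (D + single P 1) = c.H0 D + 1) :
    (∀ P, P ∉ t → c.H0 (D + single P 1) = c.H0 D + 1 →
      c.H0 (D + ∑ Q ∈ t, single Q (1 : ℤ) + single P 1)
        = c.H0 (D + ∑ Q ∈ t, single Q (1 : ℤ)) + 1) ∧
    c.H0 (D + ∑ Q ∈ t, single Q (1 : ℤ)) = c.H0 D + t.card ∧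
    c.H1 (D + ∑ Q ∈ t, single Q (1 : ℤ)) = c.H1 D := by
  induction t using Finset.induction_on with
  | empty => simp
  | insert Q t hQ ih =>
    have ht' : ∀ P ∈ t, c.H0 (D + single P 1) = c.H0 D + 1 :=
      fun P hP => ht P (Finset.mem_insert_of_mem hP)
    obtain ⟨ih1, ih2, ih3⟩ := ih ht'
    have hsum : D + ∑ R ∈ insert Q t, single R (1 : ℤ)
        = D + ∑ R ∈ t, single R (1 : ℤ) + single Q 1 := by
      rw [Finset.sum_insert hQ]; abel
    have hQj := ih1 Q hQ (ht Q (Finset.mem_insert_self _ _))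
    refine ⟨?_, ?_, ?_⟩
    · intro P hP hPj
      have hPQ : P ≠ Q := fun h => hP (h ▸ Finset.mem_insert_self _ _)
      have hPt : P ∉ t := fun h => hP (Finset.mem_insert_of_mem h)
      rw [hsum]
      exact hc.jump_add hPQ (ih1 P hPt hPj)
    · rw [hsum, hQj, ih2, Finset.card_insert_of_notMem hQ]; ring
    · rw [hsum]
      have h1 := hc.chi (D + ∑ R ∈ t, single R (1 : ℤ)) Q
      have h2 := hc.mono1 (D + ∑ R ∈ t, single R (1 : ℤ)) Q
      omega

/-- **Jump-set finiteness** (no duality): if `h¹(L(D)) > 0`, then for all but finitely many points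
`P` one has `h¹(L(D + P)) = h¹(L(D)) - 1`. -/
theorem finite_jump (D : Pt →₀ ℤ) (h : 0 < c.H1 D) :
    {P | c.H1 (D + single P 1) = c.H1 D}.Finite := by
  classical
  by_contra hinf
  have hinf' : {P | c.H1 (D + single P 1) = c.H1 D}.Infinite := hinf
  obtain ⟨d0, hd0⟩ := hc.van
  obtain ⟨t, htsub, htcard⟩ := hinf'.exists_subset_card_eq (d0 - deg D).toNat
  have ht : ∀ P ∈ t, c.H0 (D + single P 1) = c.H0 D + 1 := by
    intro P hP
    have h1 : c.H1 (D + single P 1) = c.H1 D := htsub hP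
    have h2 := hc.chi D P
    omega
  obtain ⟨-, -, h3⟩ := hc.jump_finset D t ht
  have hdeg : d0 ≤ deg (D + ∑ Q ∈ t, single Q (1 : ℤ)) := by
    rw [map_add, map_sum]
    simp only [deg_single, Finset.sum_const, htcard, nsmul_eq_mul, mul_one]
    have := Int.self_le_toNat (d0 - deg D)
    omega
  have := hd0 _ hdeg
  omega

/-- Step 1: subtracting suitable points of an infinite set kills all sections. -/
theorem exists_kill {S : Set Pt} (hS : S.Infinite) (n : ℕ) :
    ∀ D : Pt →₀ ℤ, c.H0 D ≤ n →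
      ∃ l : List Pt, (∀ x ∈ l, x ∈ S) ∧ l.length ≤ n ∧ c.H0 (D - dv l) = 0 := by
  induction n with
  | zero =>
    intro D hD
    exact ⟨[], by simp, by simp, by simpa using hD⟩
  | succ n ih =>
    intro D hD
    by_cases h0 : c.H0 D = 0
    · exact ⟨[], by simp, by simp, by simpa using h0⟩
    · have hfin := hc.fin D (Nat.pos_of_ne_zero h0)
      obtain ⟨q, hqS, hq⟩ := (hS.sdiff hfin).nonempty
      have hq' : c.H0 (D - single q 1) ≠ c.H0 D := hq
      have hle := hc.H0_sub_le D q
      obtain ⟨l, hlS, hlen, hl⟩ := ih (D - single q 1) (by omega)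
      refine ⟨q :: l, ?_, ?_, ?_⟩
      · intro x hx
        rcases List.mem_cons.1 hx with rfl | hx
        · exact hqS
        · exact hlS x hx
      · simp; omega
      · rw [dv_cons, ← sub_sub]; exact hl

/-- Step 2: adding suitable points of an infinite set kills `H¹` without creating sections. -/
theorem exists_fill {S : Set Pt} (hS : S.Infinite) (n : ℕ) :
    ∀ D : Pt →₀ ℤ, c.H0 D = 0 → c.H1 D = n →
      ∃ l : List Pt, (∀ x ∈ l, x ∈ S) ∧ l.length = n ∧ c.H0 (D + dv l) = 0 ∧
        c.H1 (D + dv l) = 0 := by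
  induction n with
  | zero =>
    intro D h0 h1
    exact ⟨[], by simp, by simp, by simpa using h0, by simpa using h1⟩
  | succ n ih =>
    intro D h0 h1
    have hfin := hc.finite_jump D (by omega)
    obtain ⟨q, hqS, hq⟩ := (hS.sdiff hfin).nonempty
    have hq' : c.H1 (D + single q 1) ≠ c.H1 D := hq
    have hle := hc.mono1 D q
    have hchi := hc.chi D q
    obtain ⟨l, hlS, hlen, hl0, hl1⟩ := ih (D + single q 1) (by omega) (by omega)
    refine ⟨q :: l, ?_, ?_, ?_, ?_⟩
    · intro x hx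
      rcases List.mem_cons.1 hx with rfl | hx
      · exact hqS
      · exact hlS x hx
    · simp [hlen]
    · rw [dv_cons, ← add_assoc]; exact hl0
    · rw [dv_cons, ← add_assoc]; exact hl1

/-- **Abstract covering theorem**, list form.  If `χ(L(D₀)) = 1`, there are lists `l`, `l'` of the
same length `≤ h⁰(L(D₀))` of points of the infinite set `S` such that `D' = D₀ + Σ l' - Σ l`
satisfies `h¹ = 0`, `h⁰ = 1`, and the unique section does not vanish at any point of the finite
set `Inf`. -/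
theorem exists_cover_list {S Inf : Set Pt} (hS : S.Infinite) (hInf : Inf.Finite)
    (D0 : Pt →₀ ℤ) (hchi : (c.H0 D0 : ℤ) - c.H1 D0 = 1) :
    ∃ l l' : List Pt, (∀ x ∈ l, x ∈ S) ∧ (∀ x ∈ l', x ∈ S) ∧ l.length = l'.length ∧
      l.length ≤ c.H0 D0 ∧
      c.H1 (D0 + dv l' - dv l) = 0 ∧ c.H0 (D0 + dv l' - dv l) = 1 ∧
      ∀ P ∈ Inf, c.H0 (D0 + dv l' - dv l - single P 1) = 0 := by
  classical
  -- Step 1
  obtain ⟨l, hlS, hlen, hl0⟩ := hc.exists_kill hS (c.H0 D0) D0 le_rfl
  -- Euler characteristic of `D0 - dv l`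
  have hchi1 : ∀ (m : List Pt) (D : Pt →₀ ℤ),
      (c.H0 (D - dv m) : ℤ) - c.H1 (D - dv m) = c.H0 D - c.H1 D - m.length := by
    intro m
    induction m with
    | nil => intro D; simp
    | cons Q m ihm =>
      intro D
      rw [dv_cons, ← sub_sub, ihm (D - single Q 1), hc.chi_sub D Q]
      simp; ring
  have hχ1 := hchi1 l D0
  rw [hl0] at hχ1
  -- `H1 (D0 - dv l) = l.length - 1`, in particular `l` is nonempty
  have hlpos : 1 ≤ l.length := by omega
  obtain ⟨a, ha⟩ : ∃ a, l.length = a + 1 := ⟨l.length - 1, by omega⟩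
  have hH1 : c.H1 (D0 - dv l) = a := by omega
  -- Step 2
  obtain ⟨m, hmS, hmlen, hm0, hm1⟩ := hc.exists_fill hS a (D0 - dv l) hl0 hH1
  set D2 := D0 - dv l + dv m with hD2
  -- Step 3: the last point
  have hbad : ∀ P ∈ Inf, {Q | c.H1 (D2 - single P 1 + single Q 1) = c.H1 (D2 - single P 1)}.Finite := by
    intro P _
    apply hc.finite_jump
    have h1 := hc.chi_sub D2 P
    have h2 := hc.H0_sub_le D2 P
    omega
  have hbadU : (⋃ P ∈ Inf, {Q | c.H1 (D2 - single P 1 + single Q 1)
      = c.H1 (D2 - single P 1)}).Finite := hInf.biUnion hbad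
  obtain ⟨q, hqS, hq⟩ := (hS.sdiff hbadU).nonempty
  have hq' : ∀ P ∈ Inf, c.H1 (D2 - single P 1 + single q 1) ≠ c.H1 (D2 - single P 1) := by
    intro P hP hcontra
    exact hq (Set.mem_biUnion hP hcontra)
  have hfinal : D0 + dv (m ++ [q]) - dv l = D2 + single q 1 := by
    rw [hD2, dv_append, dv_cons, dv_nil, add_zero]; abel
  refine ⟨l, m ++ [q], hlS, ?_, ?_, hlen, ?_, ?_, ?_⟩
  · intro x hx
    rcases List.mem_append.1 hx with hx | hx
    · exact hmS x hx
    · rw [List.mem_singleton] at hx; rw [hx]; exact hqS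
  · simp [hmlen, ha]
  · rw [hfinal]
    have := hc.mono1 D2 q
    omega
  · rw [hfinal]
    have h1 := hc.mono1 D2 q
    have h2 := hc.chi D2 q
    omega
  · intro P hP
    rw [hfinal]
    have hcomm : D2 + single q 1 - single P 1 = D2 - single P 1 + single q 1 := by abel
    rw [hcomm]
    have h1 := hc.chi_sub D2 P
    have h2 := hc.H0_sub_le D2 P
    have h3 := hc.chi (D2 - single P 1) q
    have h4 := hc.mono1 (D2 - single P 1) q
    have h5 := hq' P hP
    omega

/-- **Abstract covering theorem**, divisor form: twisting by a suitable degree-`0` divisor supported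
on the infinite set `S` moves `L(D₀)` (of Euler characteristic `1`) into the big chart. -/
theorem exists_cover_divisor {S Inf : Set Pt} (hS : S.Infinite) (hInf : Inf.Finite)
    (D0 : Pt →₀ ℤ) (hchi : (c.H0 D0 : ℤ) - c.H1 D0 = 1) :
    ∃ T : Pt →₀ ℤ, (∀ P ∈ T.support, P ∈ S) ∧ deg T = 0 ∧
      c.H1 (D0 + T) = 0 ∧ c.H0 (D0 + T) = 1 ∧ ∀ P ∈ Inf, c.H0 (D0 + T - single P 1) = 0 := by
  classical
  obtain ⟨l, l', hlS, hl'S, hlen, -, h1, h0, hI⟩ := hc.exists_cover_list hS hInf D0 hchi
  refine ⟨dv l' - dv l, ?_, ?_, ?_, ?_, ?_⟩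
  · intro P hP
    rcases Finset.mem_union.1 (Finsupp.support_sub hP) with h | h
    · exact support_dv_subset l' hl'S P h
    · exact support_dv_subset l hlS P h
  · rw [map_sub, deg_dv, deg_dv, hlen]; simp
  · rwa [← add_sub_assoc]
  · rwa [← add_sub_assoc]
  · intro P hP
    rw [← add_sub_assoc]; exact hI P hP

/-- **Abstract covering theorem**, tuple form with a prescribed number `r ≥ h⁰(L(D₀))` of points
(e.g. `r = g + 1`): there are `q, q' : Fin r → S` with `D' = D₀ + Σ q'ᵢ - Σ qᵢ` in the big chart. -/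
theorem exists_cover {S Inf : Set Pt} (hS : S.Infinite) (hInf : Inf.Finite)
    (D0 : Pt →₀ ℤ) (hchi : (c.H0 D0 : ℤ) - c.H1 D0 = 1) (r : ℕ) (hr : c.H0 D0 ≤ r) :
    ∃ q q' : Fin r → Pt, (∀ i, q i ∈ S) ∧ (∀ i, q' i ∈ S) ∧
      c.H1 (D0 + ∑ i, single (q' i) (1 : ℤ) - ∑ i, single (q i) (1 : ℤ)) = 0 ∧
      c.H0 (D0 + ∑ i, single (q' i) (1 : ℤ) - ∑ i, single (q i) (1 : ℤ)) = 1 ∧
      ∀ P ∈ Inf, c.H0 (D0 + ∑ i, single (q' i) (1 : ℤ) - ∑ i, single (q i) (1 : ℤ)
        - single P 1) = 0 := by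
  classical
  obtain ⟨l, l', hlS, hl'S, hlen, hle, h1, h0, hI⟩ := hc.exists_cover_list hS hInf D0 hchi
  obtain ⟨p, hp⟩ := hS.nonempty
  -- pad both lists with the same point
  set pad := List.replicate (r - l.length) p with hpad
  have hL : (l ++ pad).length = r := by simp [hpad]; omega
  have hL' : (l' ++ pad).length = r := by simp [hpad, ← hlen]; omega
  have hmem : ∀ x ∈ l ++ pad, x ∈ S := by
    intro x hx
    rcases List.mem_append.1 hx with hx | hx
    · exact hlS x hx
    · rw [List.eq_of_mem_replicate hx]; exact hp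
  have hmem' : ∀ x ∈ l' ++ pad, x ∈ S := by
    intro x hx
    rcases List.mem_append.1 hx with hx | hx
    · exact hl'S x hx
    · rw [List.eq_of_mem_replicate hx]; exact hp
  have hdv : ∀ (m : List Pt) (hm : m.length = r),
      ∑ i : Fin r, single (m.get (Fin.cast hm.symm i)) (1 : ℤ) = dv m := by
    intro m hm
    subst hm
    rw [← dv_ofFn]
    congr 1
    exact List.ofFn_get m
  have hD : D0 + dv (l' ++ pad) - dv (l ++ pad) = D0 + dv l' - dv l := by
    rw [dv_append, dv_append]; abel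
  refine ⟨fun i => (l ++ pad).get (Fin.cast hL.symm i), fun i => (l' ++ pad).get (Fin.cast hL'.symm i),
    fun i => hmem _ (List.get_mem _ _), fun i => hmem' _ (List.get_mem _ _), ?_, ?_, ?_⟩
  · rw [hdv _ hL, hdv _ hL', hD]; exact h1
  · rw [hdv _ hL, hdv _ hL', hD]; exact h0
  · intro P hP
    rw [hdv _ hL, hdv _ hL', hD]; exact hI P hP

end CohData.IsCurveLike

end Fermat.Agent.JAC.Cover.AbsCover98
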