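/-
Programme JAC (S25), work package A5.3 (helper98): the GRAPH IDEAL of a `B`-point of an affine chart.

`k` a commutative ring, `A` a `k`-algebra (a chart ring of the curve), `B` a `k`-algebra and
`φ : A →ₐ[k] B` a `B`-point of `Spec A`.  The graph of `φ` is the closed subscheme of
`Spec (B ⊗[k] A)` cut out by the kernel `graphIdeal φ` of `graphMap φ : B ⊗[k] A → B`,
`b ⊗ a ↦ b * φ a`.

* `graphMap_surjective`, `graphMap_section` : `B ⊗ A → B` is a `B`-split surjection;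
* `quotEquiv` : `(B ⊗ A) ⧸ graphIdeal φ ≃ₐ[B] B`, so the quotient is free of rank one over `B`
  (`free_quot`, `finite_quot`): the graph is a relative effective divisor of degree `1`;
* `graphIdeal_eq_span` : the ideal is generated by the elements `1 ⊗ a - φ a ⊗ 1`;
* `map_graphIdeal` : base change `ψ : B → B'` sends the graph ideal of `φ` onto the graph ideal
  of `ψ ∘ φ` (naturality of the Abel family in `B`);
* `comap_graphIdeal` / `map_graphIdeal_of_comp` : compatibility with a morphism of charts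
  `j : A → A'` (e.g. the localisation `A₀ → A₀₁`): the graph ideal of `χ ∘ j` is the preimage of the
  graph ideal of `χ`, and it generates it when `j` is an epimorphism-like map (`B ⊗ A → B ⊗ A'`
  has the property that `B ⊗ A'` is generated by the image as a ring together with inverses, in
  particular for localisations).
-/
import Mathlib

set_option autoImplicit false

open TensorProduct

namespace Fermat.Agent.JAC.Cover.GraphIdeal98

universe u v w

variable {k : Type u} [CommRing k] {A : Type v} [CommRing A] [Algebra k A]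
  {B : Type w} [CommRing B] [Algebra k B]

/-- The `B`-algebra map `B ⊗[k] A → B`, `b ⊗ a ↦ b * φ a`. -/
noncomputable def graphMap (φ : A →ₐ[k] B) : B ⊗[k] A →ₐ[B] B :=
  Algebra.TensorProduct.lift (Algebra.ofId B B) φ (fun _ _ => mul_comm _ _)

@[simp] theorem graphMap_tmul (φ : A →ₐ[k] B) (b : B) (a : A) :
    graphMap φ (b ⊗ₜ[k] a) = b * φ a := by
  simp [graphMap]

/-- The ideal of the graph of the `B`-point `φ`. -/
noncomputable def graphIdeal (φ : A →ₐ[k] B) : Ideal (B ⊗[k] A) :=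
  RingHom.ker (graphMap φ)

theorem mem_graphIdeal {φ : A →ₐ[k] B} {x : B ⊗[k] A} :
    x ∈ graphIdeal φ ↔ graphMap φ x = 0 := Iff.rfl

theorem graphMap_section (φ : A →ₐ[k] B) (b : B) : graphMap φ (b ⊗ₜ[k] (1 : A)) = b := by
  simp

theorem graphMap_surjective (φ : A →ₐ[k] B) : Function.Surjective (graphMap φ) :=
  fun b => ⟨b ⊗ₜ 1, graphMap_section φ b⟩

theorem sub_mem_graphIdeal (φ : A →ₐ[k] B) (a : A) :
    (1 : B) ⊗ₜ[k] a - φ a ⊗ₜ[k] (1 : A) ∈ graphIdeal φ := by
  rw [mem_graphIdeal, map_sub, graphMap_tmul, graphMap_tmul]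
  simp

/-- Every element is congruent modulo the span of the `1 ⊗ a - φ a ⊗ 1` to `graphMap φ x ⊗ 1`. -/
theorem sub_mem_span (φ : A →ₐ[k] B) (x : B ⊗[k] A) :
    x - graphMap φ x ⊗ₜ[k] (1 : A) ∈
      Ideal.span (Set.range fun a : A => (1 : B) ⊗ₜ[k] a - φ a ⊗ₜ[k] (1 : A)) := by
  induction x using TensorProduct.induction_on with
  | zero => simp
  | tmul b a =>
    have h : b ⊗ₜ[k] a - graphMap φ (b ⊗ₜ[k] a) ⊗ₜ[k] (1 : A)
        = (b ⊗ₜ[k] (1 : A)) * ((1 : B) ⊗ₜ[k] a - φ a ⊗ₜ[k] (1 : A)) := by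
      rw [graphMap_tmul, mul_sub, Algebra.TensorProduct.tmul_mul_tmul,
        Algebra.TensorProduct.tmul_mul_tmul]
      simp
    rw [h]
    exact Ideal.mul_mem_left _ _ (Ideal.subset_span ⟨a, rfl⟩)
  | add x y hx hy =>
    have h : x + y - graphMap φ (x + y) ⊗ₜ[k] (1 : A)
        = (x - graphMap φ x ⊗ₜ[k] (1 : A)) + (y - graphMap φ y ⊗ₜ[k] (1 : A)) := by
      rw [map_add, TensorProduct.add_tmul]; ring
    rw [h]
    exact Ideal.add_mem _ hx hy

/-- The graph ideal is generated by the elements `1 ⊗ a - φ a ⊗ 1`. -/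
theorem graphIdeal_eq_span (φ : A →ₐ[k] B) :
    graphIdeal φ = Ideal.span (Set.range fun a : A => (1 : B) ⊗ₜ[k] a - φ a ⊗ₜ[k] (1 : A)) := by
  apply le_antisymm
  · intro x hx
    have h := sub_mem_span φ x
    rw [mem_graphIdeal.1 hx, TensorProduct.zero_tmul, sub_zero] at h
    exact h
  · rw [Ideal.span_le]
    rintro _ ⟨a, rfl⟩
    exact sub_mem_graphIdeal φ a

/-- The graph ideal is generated by the `1 ⊗ a - φ a ⊗ 1` for `a` in a set of `k`-algebra
generators of `A`. -/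
theorem graphIdeal_eq_span_of_adjoin (φ : A →ₐ[k] B) (s : Set A)
    (hs : Algebra.adjoin k s = ⊤) :
    graphIdeal φ = Ideal.span ((fun a : A => (1 : B) ⊗ₜ[k] a - φ a ⊗ₜ[k] (1 : A)) '' s) := by
  apply le_antisymm
  · rw [graphIdeal_eq_span, Ideal.span_le]
    rintro _ ⟨a, rfl⟩
    set J := Ideal.span ((fun a : A => (1 : B) ⊗ₜ[k] a - φ a ⊗ₜ[k] (1 : A)) '' s) with hJ
    have ha : a ∈ Algebra.adjoin k s := by rw [hs]; trivial
    show (1 : B) ⊗ₜ[k] a - φ a ⊗ₜ[k] (1 : A) ∈ J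
    induction ha using Algebra.adjoin_induction with
    | mem x hx => exact Ideal.subset_span ⟨x, hx, rfl⟩
    | algebraMap r =>
      have : (1 : B) ⊗ₜ[k] (algebraMap k A r) - φ (algebraMap k A r) ⊗ₜ[k] (1 : A) = 0 := by
        rw [AlgHom.commutes, Algebra.algebraMap_eq_smul_one, Algebra.algebraMap_eq_smul_one,
          TensorProduct.tmul_smul, TensorProduct.smul_tmul', sub_self]
      rw [this]; exact Ideal.zero_mem _
    | add x y _ _ hx hy =>
      have : (1 : B) ⊗ₜ[k] (x + y) - φ (x + y) ⊗ₜ[k] (1 : A)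
          = ((1 : B) ⊗ₜ[k] x - φ x ⊗ₜ[k] (1 : A)) + ((1 : B) ⊗ₜ[k] y - φ y ⊗ₜ[k] (1 : A)) := by
        rw [TensorProduct.tmul_add, map_add, TensorProduct.add_tmul]; ring
      rw [this]; exact Ideal.add_mem _ hx hy
    | mul x y _ _ hx hy =>
      have : (1 : B) ⊗ₜ[k] (x * y) - φ (x * y) ⊗ₜ[k] (1 : A)
          = ((1 : B) ⊗ₜ[k] x) * ((1 : B) ⊗ₜ[k] y - φ y ⊗ₜ[k] (1 : A))
            + (φ y ⊗ₜ[k] (1 : A)) * ((1 : B) ⊗ₜ[k] x - φ x ⊗ₜ[k] (1 : A)) := by
        rw [map_mul]
        simp only [mul_sub, Algebra.TensorProduct.tmul_mul_tmul, one_mul, mul_one]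
        rw [mul_comm (φ y) (φ x)]
        ring
      rw [this]
      exact Ideal.add_mem _ (Ideal.mul_mem_left _ _ hy) (Ideal.mul_mem_left _ _ hx)
  · rw [Ideal.span_le]
    rintro _ ⟨a, _, rfl⟩
    exact sub_mem_graphIdeal φ a

/-- The quotient by the graph ideal is `B`. -/
noncomputable def quotEquiv (φ : A →ₐ[k] B) : ((B ⊗[k] A) ⧸ graphIdeal φ) ≃ₐ[B] B :=
  Ideal.quotientKerAlgEquivOfSurjective (graphMap_surjective φ)

@[simp] theorem quotEquiv_mk (φ : A →ₐ[k] B) (x : B ⊗[k] A) :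
    quotEquiv φ (Ideal.Quotient.mk _ x) = graphMap φ x := rfl

instance free_quot (φ : A →ₐ[k] B) : Module.Free B ((B ⊗[k] A) ⧸ graphIdeal φ) :=
  Module.Free.of_equiv (quotEquiv φ).symm.toLinearEquiv

instance finite_quot (φ : A →ₐ[k] B) : Module.Finite B ((B ⊗[k] A) ⧸ graphIdeal φ) :=
  Module.Finite.equiv (quotEquiv φ).symm.toLinearEquiv

theorem finrank_quot [Nontrivial B] (φ : A →ₐ[k] B) :
    Module.finrank B ((B ⊗[k] A) ⧸ graphIdeal φ) = 1 := by
  rw [LinearEquiv.finrank_eq (quotEquiv φ).toLinearEquiv, Module.finrank_self]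

/-- `B ⊗ A` is the direct sum of `B ⊗ 1` and the graph ideal: the `B`-linear projector. -/
theorem sub_section_mem_graphIdeal (φ : A →ₐ[k] B) (x : B ⊗[k] A) :
    x - graphMap φ x ⊗ₜ[k] (1 : A) ∈ graphIdeal φ := by
  rw [mem_graphIdeal, map_sub, graphMap_section, sub_self]

section BaseChange

variable {B' : Type*} [CommRing B'] [Algebra k B']

theorem graphMap_map (φ : A →ₐ[k] B) (ψ : B →ₐ[k] B') (x : B ⊗[k] A) :
    graphMap (ψ.comp φ) (Algebra.TensorProduct.map ψ (AlgHom.id k A) x) = ψ (graphMap φ x) := by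
  induction x using TensorProduct.induction_on with
  | zero => simp
  | tmul b a => simp
  | add x y hx hy => simp only [map_add, hx, hy]

/-- **Naturality in `B`.**  Base change along `ψ : B → B'` maps the graph ideal of `φ` onto (a
generating set of) the graph ideal of `ψ ∘ φ`. -/
theorem map_graphIdeal (φ : A →ₐ[k] B) (ψ : B →ₐ[k] B') :
    (graphIdeal φ).map (Algebra.TensorProduct.map ψ (AlgHom.id k A)) = graphIdeal (ψ.comp φ) := by
  apply le_antisymm
  · rw [Ideal.map_le_iff_le_comap]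
    intro x hx
    rw [Ideal.mem_comap, mem_graphIdeal, graphMap_map, mem_graphIdeal.1 hx, map_zero]
  · rw [graphIdeal_eq_span, Ideal.span_le]
    rintro _ ⟨a, rfl⟩
    have h : (1 : B') ⊗ₜ[k] a - (ψ.comp φ) a ⊗ₜ[k] (1 : A)
        = Algebra.TensorProduct.map ψ (AlgHom.id k A) ((1 : B) ⊗ₜ[k] a - φ a ⊗ₜ[k] (1 : A)) := by
      simp
    show (1 : B') ⊗ₜ[k] a - (ψ.comp φ) a ⊗ₜ[k] (1 : A) ∈ _
    rw [h]
    exact Ideal.mem_map_of_mem _ (sub_mem_graphIdeal φ a)

end BaseChange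

section ChartChange

variable {A' : Type*} [CommRing A'] [Algebra k A']

theorem graphMap_chart (j : A →ₐ[k] A') (χ : A' →ₐ[k] B) (x : B ⊗[k] A) :
    graphMap χ (Algebra.TensorProduct.map (AlgHom.id k B) j x) = graphMap (χ.comp j) x := by
  induction x using TensorProduct.induction_on with
  | zero => simp
  | tmul b a => simp
  | add x y hx hy => simp only [map_add, hx, hy]

/-- The graph ideal of `χ ∘ j` is the preimage of the graph ideal of `χ` under
`B ⊗ A → B ⊗ A'`. -/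
theorem comap_graphIdeal (j : A →ₐ[k] A') (χ : A' →ₐ[k] B) :
    (graphIdeal χ).comap (Algebra.TensorProduct.map (AlgHom.id k B) j) = graphIdeal (χ.comp j) := by
  ext x
  rw [Ideal.mem_comap, mem_graphIdeal, mem_graphIdeal, graphMap_chart]

theorem map_graphIdeal_le (j : A →ₐ[k] A') (χ : A' →ₐ[k] B) :
    (graphIdeal (χ.comp j)).map (Algebra.TensorProduct.map (AlgHom.id k B) j) ≤ graphIdeal χ := by
  rw [Ideal.map_le_iff_le_comap, comap_graphIdeal]

/-- If `A'` is generated as a `k`-algebra by the image of `j` and inverses `u` of elements `j t`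
(e.g. `A' = A[1/t]`), the graph ideal of `χ ∘ j` generates the graph ideal of `χ`: over the overlap
the two charts define the same divisor. -/
theorem map_graphIdeal_of_adjoin (j : A →ₐ[k] A') (χ : A' →ₐ[k] B) (t : A) (u : A')
    (hu : j t * u = 1) (hgen : Algebra.adjoin k (Set.range j ∪ {u}) = ⊤) :
    (graphIdeal (χ.comp j)).map (Algebra.TensorProduct.map (AlgHom.id k B) j) = graphIdeal χ := by
  apply le_antisymm (map_graphIdeal_le j χ)
  rw [graphIdeal_eq_span_of_adjoin χ _ hgen, Ideal.span_le]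
  set J := (graphIdeal (χ.comp j)).map (Algebra.TensorProduct.map (AlgHom.id k B) j) with hJ
  have hmem : ∀ a : A, (1 : B) ⊗ₜ[k] j a - χ (j a) ⊗ₜ[k] (1 : A') ∈ J := by
    intro a
    have h : (1 : B) ⊗ₜ[k] j a - χ (j a) ⊗ₜ[k] (1 : A')
        = Algebra.TensorProduct.map (AlgHom.id k B) j
            ((1 : B) ⊗ₜ[k] a - (χ.comp j) a ⊗ₜ[k] (1 : A)) := by
      simp
    rw [h]
    exact Ideal.mem_map_of_mem _ (sub_mem_graphIdeal (χ.comp j) a)
  rintro _ ⟨a', ha', rfl⟩
  rcases ha' with ⟨a, rfl⟩ | ha'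
  · exact hmem a
  · rw [Set.mem_singleton_iff] at ha'
    rw [ha']
    -- `1 ⊗ u - χ u ⊗ 1 = - (χ u ⊗ u) * (1 ⊗ j t - χ (j t) ⊗ 1)`
    have hχ : χ (j t) * χ u = 1 := by rw [← map_mul, hu, map_one]
    have h : (1 : B) ⊗ₜ[k] u - χ u ⊗ₜ[k] (1 : A')
        = - ((χ u ⊗ₜ[k] u) * ((1 : B) ⊗ₜ[k] j t - χ (j t) ⊗ₜ[k] (1 : A'))) := by
      rw [mul_sub, Algebra.TensorProduct.tmul_mul_tmul, Algebra.TensorProduct.tmul_mul_tmul,
        mul_one, mul_one, mul_comm u (j t), hu, mul_comm (χ u) (χ (j t)), hχ]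
      ring
    show (1 : B) ⊗ₜ[k] u - χ u ⊗ₜ[k] (1 : A') ∈ J
    rw [h]
    exact (Ideal.neg_mem_iff J).2 (Ideal.mul_mem_left _ _ (hmem t))

end ChartChange

end Fermat.Agent.JAC.Cover.GraphIdeal98
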